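import Fermat.Agent.Local.Mult

/-!
The `X₀(3)` and `X₀(5)` parameters attached to a point of order `3`, resp. `5`.
-/

set_option autoImplicit false

namespace FermatAgent.X015

open WeierstrassCurve Polynomial

section Identities

variable {R : Type*} [CommRing R] (W : WeierstrassCurve R) (x : R)

/-- `b₂` after translating `x` to the origin. -/
def shiftB2 : R := W.b₂ + 12 * x

/-- `b₄` after translating `x` to the origin. -/
def shiftB4 : R := W.b₄ + x * W.b₂ + 6 * x ^ 2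

lemma four_mul_psi3 : 4 * W.Ψ₃.eval x =
    shiftB2 W x * W.Ψ₂Sq.eval x - shiftB4 W x ^ 2 := by
  simp only [shiftB2, shiftB4, WeierstrassCurve.Ψ₃, WeierstrassCurve.Ψ₂Sq, eval_add, eval_mul,
    eval_C, eval_pow, eval_X, eval_ofNat]
  linear_combination W.b_relation

lemma eval_prePsi4_shift : W.preΨ₄.eval x =
    shiftB4 W x * W.Ψ₃.eval x - W.Ψ₂Sq.eval x ^ 2 := by
  simp only [shiftB4, WeierstrassCurve.preΨ₄, WeierstrassCurve.Ψ₃, WeierstrassCurve.Ψ₂Sq, eval_add,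
    eval_mul, eval_C, eval_pow, eval_X, eval_ofNat]
  linear_combination x ^ 2 * W.b_relation

lemma c4_shift : W.c₄ = shiftB2 W x ^ 2 - 24 * shiftB4 W x := by
  simp only [shiftB2, shiftB4, WeierstrassCurve.c₄]
  ring

lemma delta_shift : W.Δ = -(shiftB2 W x ^ 2 * W.Ψ₃.eval x) - 8 * shiftB4 W x ^ 3
    - 27 * W.Ψ₂Sq.eval x ^ 2
    + 9 * shiftB2 W x * shiftB4 W x * W.Ψ₂Sq.eval x := by
  simp only [shiftB2, shiftB4, WeierstrassCurve.Δ, WeierstrassCurve.Ψ₃, WeierstrassCurve.Ψ₂Sq,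
    eval_add, eval_mul, eval_C, eval_pow, eval_X, eval_ofNat]
  simp only [WeierstrassCurve.b₂, WeierstrassCurve.b₄, WeierstrassCurve.b₆, WeierstrassCurve.b₈]
  ring

lemma eval_prePsi5 : (W.preΨ 5).eval x =
    W.preΨ₄.eval x * W.Ψ₂Sq.eval x ^ 2 - W.Ψ₃.eval x ^ 3 := by
  rw [show (5 : ℤ) = 2 * 2 + 1 from rfl, preΨ_odd]
  norm_num

lemma eval_phi2 : (W.Φ 2).eval x = x * W.Ψ₂Sq.eval x - W.Ψ₃.eval x := by
  simp only [Φ_two, WeierstrassCurve.Ψ₃, WeierstrassCurve.Ψ₂Sq, eval_add, eval_sub, eval_mul,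
    eval_C, eval_pow, eval_X, eval_ofNat]
  ring

end Identities

variable {K : Type*} [Field K] [CharZero K]

/-- The `X₀(3)` parameter `r` of a point of order `3`. -/
lemma three_param {W : WeierstrassCurve K} {x : K} (h3 : W.Ψ₃.eval x = 0) (hc : W.c₄ ≠ 0)
    (hΔ : W.Δ ≠ 0) :
    ∃ _ : shiftB2 W x ≠ 0, W.c₄ / shiftB2 W x ^ 2 ≠ 0 ∧ 9 * (W.c₄ / shiftB2 W x ^ 2) - 1 ≠ 0 ∧
      -110592 * (W.c₄ / shiftB2 W x ^ 2) ^ 3 * W.Δ =
        W.c₄ ^ 3 * ((W.c₄ / shiftB2 W x ^ 2 - 1) ^ 3 * (9 * (W.c₄ / shiftB2 W x ^ 2) - 1)) := by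
  have h4 := four_mul_psi3 W x
  have hcs := c4_shift W x
  have hds := delta_shift W x
  rw [h3] at h4 hds
  generalize shiftB2 W x = B at *
  generalize shiftB4 W x = p at *
  generalize W.Ψ₂Sq.eval x = q at *
  have hB : B ≠ 0 := by
    rintro rfl
    apply hc
    have : p ^ 2 = 0 := by linear_combination h4
    rw [hcs, pow_eq_zero_iff two_ne_zero |>.1 this]
    ring
  have hq : q = p ^ 2 / B := by
    field_simp
    linear_combination -h4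
  have hid : -110592 * (W.c₄ / B ^ 2) ^ 3 * W.Δ =
        W.c₄ ^ 3 * ((W.c₄ / B ^ 2 - 1) ^ 3 * (9 * (W.c₄ / B ^ 2) - 1)) := by
    rw [hds, hcs, hq]
    field_simp
    ring
  refine ⟨hB, div_ne_zero hc (pow_ne_zero 2 hB), ?_, hid⟩
  intro h0
  rw [h0] at hid
  simp [hc, hΔ, hB] at hid

/-- The `X₀(5)` parameter of a subgroup with `x`-coordinates `x₁`, `x₂`. -/
def fiveParam {F : Type*} [Field F] (W : WeierstrassCurve F) (x₁ x₂ : F) : F :=
  -13 + (2 * W.b₄ + W.b₂ * (x₁ + x₂) + 6 * (x₁ ^ 2 + x₂ ^ 2)) / (x₁ - x₂) ^ 2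

omit [CharZero K] in
lemma fiveParam_comm (W : WeierstrassCurve K) (x₁ x₂ : K) :
    fiveParam W x₁ x₂ = fiveParam W x₂ x₁ := by
  unfold fiveParam
  rw [show (x₁ - x₂) ^ 2 = (x₂ - x₁) ^ 2 by ring, add_comm x₁ x₂, add_comm (x₁ ^ 2) (x₂ ^ 2)]

omit [CharZero K] in
/-- The `j`-invariant in terms of the `X₀(5)` parameter. -/
lemma five_param {W : WeierstrassCurve K} {x₁ x₂ : K} (h2 : W.Ψ₂Sq.eval x₁ ≠ 0)
    (h3 : W.Ψ₃.eval x₁ ≠ 0) (h5 : (W.preΨ 5).eval x₁ = 0)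
    (hx₂ : x₂ * W.Ψ₂Sq.eval x₁ = (W.Φ 2).eval x₁) :
    (fiveParam W x₁ x₂ ^ 2 + 10 * fiveParam W x₁ x₂ + 5) ^ 3 * W.Δ =
      fiveParam W x₁ x₂ * W.c₄ ^ 3 := by
  have hp : 2 * W.b₄ + W.b₂ * (x₁ + x₂) + 6 * (x₁ ^ 2 + x₂ ^ 2) = 2 * shiftB4 W x₁ +
      (x₂ - x₁) * shiftB2 W x₁ + 6 * (x₂ - x₁) ^ 2 := by
    simp only [shiftB2, shiftB4]; ring
  have h4 := four_mul_psi3 W x₁
  have hcs := c4_shift W x₁
  have hds := delta_shift W x₁
  rw [eval_phi2] at hx₂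
  rw [eval_prePsi5, eval_prePsi4_shift] at h5
  rw [fiveParam, hp, show (x₁ - x₂) ^ 2 = (x₂ - x₁) ^ 2 by ring]
  generalize shiftB2 W x₁ = B at *
  generalize shiftB4 W x₁ = p at *
  generalize W.Ψ₂Sq.eval x₁ = q at *
  generalize W.Ψ₃.eval x₁ = e at *
  obtain ⟨d, rfl⟩ : ∃ d, x₂ = x₁ + d := ⟨x₂ - x₁, by ring⟩
  have he : e = -(d * q) := by linear_combination hx₂
  subst he
  have hd : d ≠ 0 := by rintro rfl; simp at h3
  have hq : q = d ^ 3 - p * d := by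
    have : q ^ 3 * (q - (d ^ 3 - p * d)) = 0 := by linear_combination -h5
    rcases mul_eq_zero.1 this with h | h
    · exact absurd (pow_eq_zero_iff (by norm_num) |>.1 h) h2
    · exact sub_eq_zero.1 h
  have hB : B = p ^ 2 / q - 4 * d := by
    field_simp
    linear_combination -h4
  obtain ⟨u, rfl⟩ : ∃ u, p = d ^ 2 - u := ⟨d ^ 2 - p, by ring⟩
  rw [show d ^ 3 - (d ^ 2 - u) * d = d * u by ring] at hq
  subst hq
  have hu : u ≠ 0 := right_ne_zero_of_mul h2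
  rw [hcs, hds, hB, add_sub_cancel_left]
  field_simp
  ring

end FermatAgent.X015
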