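import Fermat.Agent.Local.Mult
import Fermat.Prelude.Def_FLTPrelim_GaloisRep
import Mathlib.FieldTheory.Finiteness
import Mathlib.FieldTheory.IsAlgClosed.Basic
import Mathlib.FieldTheory.Galois.Infinite
import Mathlib.FieldTheory.Perfect
import Mathlib.Tactic

/-!
`n`-torsion of an elliptic curve over an algebraically closed field for odd `n`:
there is a nontrivial point, there are at most `n ^ 2` points, and for prime `n` a proper
nontrivial stable submodule is the set of multiples of a single point.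
-/

set_option autoImplicit false

namespace FermatAgent.X015

open WeierstrassCurve WeierstrassCurve.Affine WeierstrassCurve.Affine.Point Polynomial

section AlgClosed

variable {K : Type*} [Field K] [DecidableEq K] [IsAlgClosed K] (W : WeierstrassCurve.Affine K)

omit [DecidableEq K] [IsAlgClosed K] in
lemma evalSq_preΨ_iff {n : ℕ} (hodd : Odd n) (x : K) :
    (W.ΨSq n).eval x = 0 ↔ (W.preΨ n).eval x = 0 := by
  rw [ΨSq_ofNat, preΨ_ofNat, if_neg (Nat.not_even_iff_odd.2 hodd)]
  simp

lemma exists_torsion_point {n : ℕ} (hodd : Odd n) (hn : 2 < n) (hK : (n : K) ≠ 0)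
    (hΔ : W.Δ ≠ 0) : ∃ (x y : K) (h : W.Nonsingular x y), n • Point.some x y h = 0 := by
  obtain ⟨x, hx⟩ := IsAlgClosed.exists_root (W.preΨ n) (by
    have := W.natDegree_preΨ_pos (n := n) (by simpa using hn) (by simpa using hK)
    intro h
    rw [natDegree_eq_of_degree_eq_some h] at this
    exact this.false)
  obtain ⟨y, hy⟩ := IsAlgClosed.exists_root
    (X ^ 2 + C (W.a₁ * x + W.a₃) * X - C (x ^ 3 + W.a₂ * x ^ 2 + W.a₄ * x + W.a₆)) (by
      intro h
      have hd : (X ^ 2 + C (W.a₁ * x + W.a₃) * X -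
          C (x ^ 3 + W.a₂ * x ^ 2 + W.a₄ * x + W.a₆)).natDegree = 2 := by
        compute_degree!
      rw [natDegree_eq_of_degree_eq_some h] at hd
      exact absurd hd (by norm_num))
  have he : W.Equation x y := by
    rw [Local.equation_iff_zero]
    simp only [IsRoot, eval_sub, eval_add, eval_pow, eval_X, eval_mul, eval_C] at hy
    linear_combination hy
  refine ⟨x, y, (equation_iff_nonsingular_of_Δ_ne_zero hΔ).1 he, ?_⟩
  rw [Local.nsmul_eq_zero_iff, evalSq_preΨ_iff W hodd]
  exact hx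

/-- Coordinates of a point. -/
def coordsOfPoint : W.Point → Option (K × K)
  | .zero => none
  | .some x y _ => Option.some (x, y)

omit [DecidableEq K] [IsAlgClosed K] in
lemma coordsOfPoint_injective : Function.Injective (coordsOfPoint W) := by
  rintro (_ | ⟨x₁, y₁, h₁⟩) (_ | ⟨x₂, y₂, h₂⟩) h <;>
    simp only [coordsOfPoint, Option.some.injEq, Prod.mk.injEq, reduceCtorEq] at h
  · rfl
  · obtain ⟨rfl, rfl⟩ := h; rfl

omit [IsAlgClosed K] in
lemma torsion_finite_card_le {n : ℕ} (hodd : Odd n) (hK : (n : K) ≠ 0) :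
    Finite (Submodule.torsionBy ℤ W.Point n) ∧
      Nat.card (Submodule.torsionBy ℤ W.Point n) ≤ n ^ 2 := by
  classical
  let T : Finset (K × K) := (W.preΨ n).roots.toFinset.biUnion fun x =>
    (X ^ 2 + C (W.a₁ * x + W.a₃) * X -
      C (x ^ 3 + W.a₂ * x ^ 2 + W.a₄ * x + W.a₆)).roots.toFinset.image fun y => (x, y)
  have hpre : W.preΨ n ≠ 0 := W.preΨ_ne_zero (by simpa using hK)
  have hmem : ∀ P : Submodule.torsionBy ℤ W.Point n,
      coordsOfPoint W P ∈ Finset.insertNone T := by
    rintro ⟨P, hP⟩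
    rw [Submodule.mem_torsionBy_iff, natCast_zsmul] at hP
    match P, hP with
    | .zero, _ => simp [coordsOfPoint]
    | .some x y h, hP =>
      rw [Local.nsmul_eq_zero_iff, evalSq_preΨ_iff W hodd] at hP
      simp only [coordsOfPoint, Finset.some_mem_insertNone, T, Finset.mem_biUnion,
        Finset.mem_image, Multiset.mem_toFinset]
      refine ⟨x, (mem_roots hpre).2 hP, y, ?_, rfl⟩
      rw [mem_roots (Monic.ne_zero (by monicity!))]
      have := (Local.equation_iff_zero W x y).1 h.1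
      simp only [IsRoot, eval_sub, eval_add, eval_pow, eval_X, eval_mul, eval_C]
      linear_combination this
  let f : Submodule.torsionBy ℤ W.Point n → (Finset.insertNone T : Finset (Option (K × K))) :=
    fun P => ⟨coordsOfPoint W P, hmem P⟩
  have hf : Function.Injective f := fun P Q h =>
    Subtype.ext (coordsOfPoint_injective W (congr_arg Subtype.val h))
  have hfin : Finite (Submodule.torsionBy ℤ W.Point n) := Finite.of_injective f hf
  refine ⟨hfin, (Nat.card_le_card_of_injective f hf).trans ?_⟩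
  rw [Nat.card_eq_fintype_card, Fintype.card_coe, Finset.card_insertNone]
  have h2 : ∀ x, ((X ^ 2 + C (W.a₁ * x + W.a₃) * X -
      C (x ^ 3 + W.a₂ * x ^ 2 + W.a₄ * x + W.a₆)).roots.toFinset.image fun y => (x, y)).card
        ≤ 2 := fun x => Finset.card_image_le.trans <| (Multiset.toFinset_card_le _).trans <|
      (card_roots' _).trans (by compute_degree!)
  have hT : T.card ≤ (W.preΨ n).roots.toFinset.card * 2 :=
    Finset.card_biUnion_le_card_mul _ _ _ fun x _ => h2 x
  have hdeg : (W.preΨ n).roots.toFinset.card ≤ (n ^ 2 - 1) / 2 := by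
    refine ((Multiset.toFinset_card_le _).trans (card_roots' _)).trans ?_
    have := W.natDegree_preΨ_le n
    rw [if_neg (by simpa [Int.even_coe_nat] using hodd)] at this
    simpa using this
  have : 0 < n ^ 2 := pow_pos hodd.pos 2
  omega

end AlgClosed

section Galois

variable {E : WeierstrassCurve ℚ}

lemma charZero_natCast_ne_zero (p : ℕ) [Fact p.Prime] : (p : AlgebraicClosure ℚ) ≠ 0 :=
  Nat.cast_ne_zero.2 (Fact.out : p.Prime).ne_zero

lemma nontrivial_torsion {p : ℕ} [Fact p.Prime] (hodd : Odd p) (hΔ : E.Δ ≠ 0) :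
    Nontrivial (Submodule.torsionBy ℤ ((E.toAffine)⁄(AlgebraicClosure ℚ)).Point p) := by
  have hp2 : 2 < p := by
    have := (Fact.out : p.Prime).two_le
    obtain ⟨k, rfl⟩ := hodd
    omega
  have hΔ' : ((E.toAffine)⁄(AlgebraicClosure ℚ)).Δ ≠ 0 := by
    simpa [WeierstrassCurve.baseChange, WeierstrassCurve.map_Δ] using hΔ
  obtain ⟨x, y, h, hP⟩ := exists_torsion_point ((E.toAffine)⁄(AlgebraicClosure ℚ)).toAffine hodd
    hp2 (charZero_natCast_ne_zero p) hΔ'
  refine ⟨⟨⟨Point.some x y h, ?_⟩, 0, fun h0 => Point.some_ne_zero h (congr_arg Subtype.val h0)⟩⟩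
  rw [Submodule.mem_torsionBy_iff, natCast_zsmul]
  exact hP

/-- If the mod `p` representation is reducible, some point of order `p` spans a stable line. -/
lemma exists_stable_point {p : ℕ} [Fact p.Prime] (hodd : Odd p) (hΔ : E.Δ ≠ 0)
    (hred : ¬ GaloisRepIsIrreducible (K := AlgebraicClosure ℚ) ℚ E.toAffine p) :
    ∃ (x y : AlgebraicClosure ℚ) (h : ((E.toAffine)⁄(AlgebraicClosure ℚ)).Nonsingular x y),
      p • Point.some x y h = 0 ∧
      ∀ σ : AlgebraicClosure ℚ ≃ₐ[ℚ] AlgebraicClosure ℚ, ∃ k : ℕ, k < p ∧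
        σ • Point.some x y h = k • Point.some x y h := by
  have hnt := nontrivial_torsion (p := p) hodd hΔ
  simp only [GaloisRepIsIrreducible, hnt, true_and, not_forall, not_or] at hred
  obtain ⟨N, hN, hNb, hNt⟩ := hred
  obtain ⟨hfin, hcard⟩ := torsion_finite_card_le
    ((E.toAffine)⁄(AlgebraicClosure ℚ)).toAffine hodd (charZero_natCast_ne_zero p)
  let V := Submodule.torsionBy ℤ ((E.toAffine)⁄(AlgebraicClosure ℚ)).Point p
  have : Finite V := hfin
  have : Module.Finite (ZMod p) V := Module.Finite.of_finite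
  have hdim : Module.finrank (ZMod p) V ≤ 2 := by
    have h : Nat.card V ≤ p ^ 2 := hcard
    rw [Module.natCard_eq_pow_finrank (K := ZMod p), Nat.card_zmod] at h
    exact (Nat.pow_le_pow_iff_right (Fact.out : p.Prime).one_lt).1 h
  have hN1 : Module.finrank (ZMod p) N = 1 := by
    have h1 := (Submodule.finrank_lt hNt).trans_le hdim
    have h2 : Module.finrank (ZMod p) N ≠ 0 := fun h => hNb (Submodule.finrank_eq_zero.1 h)
    omega
  obtain ⟨⟨⟨P, hP⟩, hPN⟩, hP0, hspan⟩ := finrank_eq_one_iff'.1 hN1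
  rw [Submodule.mem_torsionBy_iff, natCast_zsmul] at hP
  match P, hP with
  | .zero, hP => exact absurd rfl hP0
  | .some x y h, hP =>
    refine ⟨x, y, h, hP, fun σ => ?_⟩
    obtain ⟨c, hc⟩ := hspan ⟨_, hN σ _ hPN⟩
    refine ⟨c.val, ZMod.val_lt c, ?_⟩
    have h1 := congr_arg (fun v : N => ((v : V) : ((E.toAffine)⁄(AlgebraicClosure ℚ)).Point)) hc
    dsimp only at h1
    rw [← ZMod.natCast_zmod_val c, Nat.cast_smul_eq_nsmul] at h1
    exact h1.symm

lemma algEquiv_smul_some (σ : AlgebraicClosure ℚ ≃ₐ[ℚ] AlgebraicClosure ℚ) {x y : AlgebraicClosure ℚ}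
    (h : ((E.toAffine)⁄(AlgebraicClosure ℚ)).Nonsingular x y) :
    ∃ h', σ • Point.some x y h = Point.some (σ x) (σ y) h' :=
  ⟨_, Point.map_some ..⟩

/-- The `x`-coordinate of an image equals `x(Q)` when `σ • P = ± Q`. -/
lemma sigma_x_eq {σ : AlgebraicClosure ℚ ≃ₐ[ℚ] AlgebraicClosure ℚ} {x y x' y' : AlgebraicClosure ℚ}
    {h : ((E.toAffine)⁄(AlgebraicClosure ℚ)).Nonsingular x y}
    {h' : ((E.toAffine)⁄(AlgebraicClosure ℚ)).Nonsingular x' y'}
    (hs : σ • Point.some x y h = Point.some x' y' h' ∨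
      σ • Point.some x y h = -Point.some x' y' h') : σ x = x' := by
  obtain ⟨h'', e⟩ := algEquiv_smul_some σ h
  rw [e, Point.neg_some] at hs
  rcases hs with hs | hs <;> exact ((Point.some.injEq ..).mp hs).1

lemma rational_of_fixed {z : AlgebraicClosure ℚ}
    (h : ∀ σ : AlgebraicClosure ℚ ≃ₐ[ℚ] AlgebraicClosure ℚ, σ z = z) :
    ∃ q : ℚ, algebraMap ℚ (AlgebraicClosure ℚ) q = z := by
  have : Algebra.IsAlgebraic ℚ (AlgebraicClosure ℚ) := AlgebraicClosure.isAlgebraic ℚ
  have : IsAlgClosure ℚ (AlgebraicClosure ℚ) := ⟨inferInstance, inferInstance⟩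
  have : IsGalois ℚ (AlgebraicClosure ℚ) := IsAlgClosure.isGalois ℚ _
  exact (InfiniteGalois.mem_range_algebraMap_iff_fixed z).2 h

end Galois

end FermatAgent.X015
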