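import Fermat.Agent.X015.Elimination
import Fermat.Agent.X015.Invariants
import Fermat.Agent.X015.Torsion
import Fermat.Prelude.Def_FLTPrelim_ModularRep

/-!
A semistable curve over `ℤ` has irreducible mod `3` or mod `5` representation.
-/

set_option autoImplicit false

namespace FermatAgent.X015

open WeierstrassCurve WeierstrassCurve.Affine WeierstrassCurve.Affine.Point Polynomial

local notation "ℚbar" => AlgebraicClosure ℚ

variable {E : WeierstrassCurve ℚ}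

lemma exists_three_param (hΔ : E.Δ ≠ 0) (hc : E.c₄ ≠ 0)
    (hred : ¬ GaloisRepIsIrreducible (K := ℚbar) ℚ E.toAffine 3) :
    ∃ r : ℚ, r ≠ 0 ∧ 9 * r - 1 ≠ 0 ∧
      -110592 * r ^ 3 * E.Δ = E.c₄ ^ 3 * ((r - 1) ^ 3 * (9 * r - 1)) := by
  have : Fact (Nat.Prime 3) := ⟨by norm_num⟩
  obtain ⟨x, y, h, hP, hst⟩ := exists_stable_point (p := 3) (by decide) hΔ hred
  have hfix : ∀ σ : ℚbar ≃ₐ[ℚ] ℚbar, σ x = x := by
    intro σ
    obtain ⟨k, hk, hσ⟩ := hst σ
    refine sigma_x_eq (h := h) (h' := h) ?_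
    interval_cases k
    · rw [zero_nsmul] at hσ
      have h0 := congr_arg (σ⁻¹ • ·) hσ
      simp only [inv_smul_smul, smul_zero] at h0
      exact absurd h0 (Point.some_ne_zero h)
    · left; rwa [one_nsmul] at hσ
    · right
      rw [hσ, eq_neg_iff_add_eq_zero, ← succ_nsmul]
      exact hP
  obtain ⟨q, rfl⟩ := rational_of_fixed hfix
  have h3 : E.Ψ₃.eval q = 0 := by
    have h0 := (Local.nsmul_eq_zero_iff h 3).1 hP
    simp only [WeierstrassCurve.baseChange, Nat.cast_ofNat, ΨSq_three, eval_pow,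
      WeierstrassCurve.map_Ψ₃, eval_map_apply] at h0
    simpa using h0
  obtain ⟨_, h1, h2, h3'⟩ := three_param h3 hc hΔ
  exact ⟨_, h1, h2, h3'⟩

lemma exists_five_param (hΔ : E.Δ ≠ 0) (hred : ¬ GaloisRepIsIrreducible (K := ℚbar) ℚ E.toAffine 5) :
    ∃ s : ℚ, (s ^ 2 + 10 * s + 5) ^ 3 * E.Δ = s * E.c₄ ^ 3 := by
  have : Fact (Nat.Prime 5) := ⟨by norm_num⟩
  obtain ⟨x, y, h, hP, hst⟩ := exists_stable_point (p := 5) (by decide) hΔ hred
  have h2 : ¬ (2 • Point.some x y h = 0) := by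
    intro h2
    refine Point.some_ne_zero h (?_ : Point.some x y h = 0)
    rw [show (5 : ℕ) = 2 * 2 + 1 from rfl, succ_nsmul, mul_nsmul, h2, nsmul_zero, zero_add] at hP
    exact hP
  have h3 : ¬ (3 • Point.some x y h = 0) := by
    intro h3
    refine h2 ?_
    rw [show (5 : ℕ) = 3 + 2 from rfl, add_nsmul, h3, zero_add] at hP
    exact hP
  rw [Local.nsmul_eq_zero_iff] at h2 h3
  obtain ⟨x₂, y₂, h', e2, hx₂⟩ :=
    Local.nsmul_eq_some h 2 h2
  have hfix : ∀ σ : ℚbar ≃ₐ[ℚ] ℚbar, σ (fiveParam ((E.toAffine)⁄ℚbar) x x₂) =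
      fiveParam ((E.toAffine)⁄ℚbar) x x₂ := by
    intro σ
    have hmap : σ (fiveParam ((E.toAffine)⁄ℚbar) x x₂) =
        fiveParam ((E.toAffine)⁄ℚbar) (σ x) (σ x₂) := by
      simp only [fiveParam, WeierstrassCurve.baseChange, WeierstrassCurve.map_b₂,
        WeierstrassCurve.map_b₄, map_add, map_neg, map_sub, map_mul, map_div₀, map_pow,
        map_ofNat, AlgEquiv.commutes]
    rw [hmap]
    obtain ⟨k, hk, hσ⟩ := hst σ
    have hσ2 : σ • Point.some x₂ y₂ h' = (2 * k) • Point.some x y h := by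
      rw [← e2, smul_comm σ (2 : ℕ), hσ, ← mul_nsmul']
    have h4 : 4 • Point.some x y h = -Point.some x y h := by
      rw [eq_neg_iff_add_eq_zero, ← succ_nsmul]; exact hP
    have h3' : 3 • Point.some x y h = -Point.some x₂ y₂ h' := by
      rw [eq_neg_iff_add_eq_zero, ← e2, ← add_nsmul]; exact hP
    interval_cases k
    · rw [zero_nsmul] at hσ
      have h0 := congr_arg (σ⁻¹ • ·) hσ
      simp only [inv_smul_smul, smul_zero] at h0
      exact absurd h0 (Point.some_ne_zero h)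
    · rw [sigma_x_eq (h := h) (h' := h) (Or.inl (by rwa [one_nsmul] at hσ)),
        sigma_x_eq (h := h') (h' := h') (Or.inl (by rw [hσ2, mul_one, e2]))]
    · rw [sigma_x_eq (h := h) (h' := h') (Or.inl (by rw [hσ, e2])),
        sigma_x_eq (h := h') (h' := h) (Or.inr (by rw [hσ2]; exact h4)), fiveParam_comm]
    · rw [sigma_x_eq (h := h) (h' := h') (Or.inr (by rw [hσ, h3'])),
        sigma_x_eq (h := h') (h' := h) (Or.inl (by
          rw [hσ2, show 2 * 3 = 5 + 1 from rfl, add_nsmul, hP, zero_add, one_nsmul])),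
        fiveParam_comm]
    · rw [sigma_x_eq (h := h) (h' := h) (Or.inr (by rw [hσ, h4])),
        sigma_x_eq (h := h') (h' := h') (Or.inr (by
          rw [hσ2, show 2 * 4 = 5 + 3 from rfl, add_nsmul, hP, zero_add, h3']))]
  obtain ⟨s, hs⟩ := rational_of_fixed hfix
  refine ⟨s, (algebraMap ℚ ℚbar).injective ?_⟩
  have h5 := (Local.nsmul_eq_zero_iff h 5).1 hP
  rw [evalSq_preΨ_iff _ (by decide)] at h5
  simp only [Nat.cast_ofNat, ΨSq_two, ΨSq_three, eval_pow, pow_eq_zero_iff two_ne_zero]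
    at h2 h3 hx₂ h5
  have key := five_param (W := (E.toAffine)⁄ℚbar) h2 h3 h5 hx₂
  rw [← hs] at key
  simpa [WeierstrassCurve.baseChange] using key

/-- `(s² + 10 s + 5)³ Δ = s c₄³` is impossible for semistable integral curves at the
rational points of `X₀(15)`. -/
lemma no_five_semistable {Δ c : ℤ} (hss : (5 : ℤ) ∣ Δ → ¬ (5 : ℤ) ∣ c) {s : ℚ}
    (hs : s = -40 ∨ s = -25 / 8 ∨ s = -25 / 2 ∨ s = -10)
    (h : (s ^ 2 + 10 * s + 5) ^ 3 * (Δ : ℚ) = s * (c : ℚ) ^ 3) : False := by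
  have h5 : Prime (5 : ℤ) := Int.prime_iff_natAbs_prime.2 (by norm_num)
  obtain ⟨K, m, hK, hm⟩ : ∃ K m : ℤ, ¬ (5 : ℤ) ∣ K ∧
      (125 * K * Δ = -5 * m * c ^ 3 ∧ ¬ (5 : ℤ) ∣ m ∨
        125 * K * Δ = -25 * m * c ^ 3 ∧ ¬ (5 : ℤ) ∣ m) := by
    rcases hs with rfl | rfl | rfl | rfl
    · refine ⟨241 ^ 3, 8, by norm_num, Or.inl ⟨?_, by norm_num⟩⟩
      exact_mod_cast (by linear_combination h :
        (125 : ℚ) * 241 ^ 3 * Δ = -5 * 8 * (c : ℚ) ^ 3)
    · refine ⟨-(211 ^ 3), 32768, by norm_num, Or.inr ⟨?_, by norm_num⟩⟩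
      exact_mod_cast (by linear_combination 262144 * h :
        (125 : ℚ) * -(211 ^ 3) * Δ = -25 * 32768 * (c : ℚ) ^ 3)
    · refine ⟨29 ^ 3, 32, by norm_num, Or.inr ⟨?_, by norm_num⟩⟩
      exact_mod_cast (by linear_combination 64 * h :
        (125 : ℚ) * 29 ^ 3 * Δ = -25 * 32 * (c : ℚ) ^ 3)
    · refine ⟨1, 2, by norm_num, Or.inl ⟨?_, by norm_num⟩⟩
      exact_mod_cast (by linear_combination h : (125 : ℚ) * 1 * Δ = -5 * 2 * (c : ℚ) ^ 3)
  have main : ∀ m : ℤ, ¬ (5 : ℤ) ∣ m → ∀ t : ℤ, t = 5 ∨ t = 25 →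
      125 * K * Δ = -t * m * c ^ 3 → False := by
    intro m hm t ht he
    have hc : (5 : ℤ) ∣ c := by
      have h' : (5 : ℤ) ∣ m * c ^ 3 := by
        rcases ht with rfl | rfl
        · exact ⟨-(5 * K * Δ), by linarith⟩
        · exact ⟨-(K * Δ), by linarith⟩
      rcases h5.dvd_mul.1 h' with h'' | h''
      · exact absurd h'' hm
      · exact h5.dvd_of_dvd_pow h''
    obtain ⟨c', rfl⟩ := hc
    have hΔ : (5 : ℤ) ∣ K * Δ := by
      rcases ht with rfl | rfl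
      · exact ⟨-(m * c' ^ 3), by linarith⟩
      · exact ⟨-(5 * m * c' ^ 3), by linarith⟩
    rcases h5.dvd_mul.1 hΔ with h'' | h''
    · exact hK h''
    · exact hss h'' (dvd_mul_right _ _)
  rcases hm with ⟨h1, h2⟩ | ⟨h1, h2⟩
  · exact main m h2 5 (Or.inl rfl) h1
  · exact main m h2 25 (Or.inr rfl) h1

lemma c4_ne_zero_of_semistable {W : WeierstrassCurve ℤ} (hW : W.IsSemistableModel) : W.c₄ ≠ 0 := by
  intro hc
  have h1 : W.Δ.natAbs = 1 := by
    rw [Nat.eq_one_iff_not_exists_prime_dvd]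
    intro p hp hd
    exact hW p hp (Int.natCast_dvd.2 hd) (hc ▸ dvd_zero _)
  have hrel := W.c_relation
  rw [hc] at hrel
  rcases Int.natAbs_eq_iff.1 h1 with h | h <;> rw [h] at hrel <;> norm_num at hrel
  · nlinarith [sq_nonneg W.c₆]
  · have h5 := congr_arg (Int.cast : ℤ → ZMod 5) hrel
    push_cast at h5
    revert h5
    generalize (W.c₆ : ZMod 5) = z
    revert z; decide

theorem irreducible_three_or_five (W : WeierstrassCurve ℤ) (hΔ : W.Δ ≠ 0)
    (hW : W.IsSemistableModel) : W.ModRepIsIrreducible 3 ∨ W.ModRepIsIrreducible 5 := by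
  by_contra hne
  obtain ⟨h3, h5⟩ := not_or.1 hne
  have hΔQ : (W.map (Int.castRingHom ℚ)).Δ ≠ 0 := by simpa using hΔ
  have hcQ : (W.map (Int.castRingHom ℚ)).c₄ ≠ 0 := by simpa using c4_ne_zero_of_semistable hW
  obtain ⟨r, hr, hr9, hre⟩ := exists_three_param hΔQ hcQ h3
  obtain ⟨s, hse⟩ := exists_five_param hΔQ h5
  have hs0 : s ≠ 0 := by
    rintro rfl
    simp [hΔ] at hse
  have hmem := fibreProduct_points hr hr9 hs0 (by
    refine mul_right_cancel₀ (mul_ne_zero (pow_ne_zero 3 hcQ) hΔQ) ?_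
    linear_combination (-110592 * r ^ 3 * (W.map (Int.castRingHom ℚ)).Δ) * (-hse) +
      (W.map (Int.castRingHom ℚ)).Δ * (s ^ 2 + 10 * s + 5) ^ 3 * hre)
  refine no_five_semistable (fun hd => hW 5 (by norm_num) (by exact_mod_cast hd)) hmem ?_
  simpa using hse

end FermatAgent.X015
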