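import Mathlib.Tactic
import Mathlib.RingTheory.Int.Basic
import Mathlib.Data.ZMod.Basic

/-!
Infinite descent showing that the system `a² + 9 e² = f²`, `a² - 16 e² = g²`
has only the trivial solutions `e = 0` or `g = 0`.
This is the statement that `X₀(15)` has only torsion rational points.
-/

set_option autoImplicit false

namespace FermatAgent.X015

lemma exists_sq_of_mul_eq_sq {x y z : ℤ} (hxy : IsCoprime x y) (h : x * y = z ^ 2)
    (hx : 0 < x) : ∃ r, x = r ^ 2 := by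
  obtain ⟨r, hr | hr⟩ := Int.sq_of_isCoprime hxy h
  · exact ⟨r, hr⟩
  · exfalso; nlinarith [sq_nonneg r]

/-- If `x * y` is a square and any common divisor of `x`, `y` divides `5`, then
`x`, `y` are both squares or both five times squares. -/
lemma sq_or_five_sq {x y z : ℤ} (hx : 0 < x) (hy : 0 < y) (h : x * y = z ^ 2)
    (hg : ∀ d : ℤ, d ∣ x → d ∣ y → d ∣ 5) :
    ∃ r s : ℤ, (x = r ^ 2 ∧ y = s ^ 2) ∨ (x = 5 * r ^ 2 ∧ y = 5 * s ^ 2) := by
  have h5 : Prime (5 : ℤ) := Int.prime_iff_natAbs_prime.2 (by norm_num)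
  by_cases hd : (5 : ℤ) ∣ x ∧ (5 : ℤ) ∣ y
  · obtain ⟨⟨x', rfl⟩, ⟨y', rfl⟩⟩ := hd
    have hz : (5 : ℤ) ∣ z := h5.dvd_of_dvd_pow (n := 2) ⟨x' * (5 * y'), by linarith⟩
    obtain ⟨z', rfl⟩ := hz
    have hc : IsCoprime x' y' := by
      refine (Int.isCoprime_iff_gcd_eq_one).2 ?_
      have h1 : ((5 * (Int.gcd x' y' : ℤ)) : ℤ) ∣ 5 :=
        hg _ (mul_dvd_mul_left 5 (Int.gcd_dvd_left x' y'))
          (mul_dvd_mul_left 5 (Int.gcd_dvd_right x' y'))
      have h2 : (Int.gcd x' y' : ℤ) ∣ 1 :=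
        (mul_dvd_mul_iff_left (by norm_num : (5 : ℤ) ≠ 0)).1 (by simpa using h1)
      exact Nat.dvd_one.1 (Int.natCast_dvd_natCast.1 (by exact_mod_cast h2))
    have hm : x' * y' = z' ^ 2 := by linarith
    obtain ⟨r, rfl⟩ := exists_sq_of_mul_eq_sq hc hm (by linarith)
    obtain ⟨s, rfl⟩ := exists_sq_of_mul_eq_sq (z := z') hc.symm (by linarith [hm]) (by linarith)
    exact ⟨r, s, Or.inr ⟨rfl, rfl⟩⟩
  · have hc : IsCoprime x y := by
      refine (Int.isCoprime_iff_gcd_eq_one).2 ?_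
      have h1 : (Int.gcd x y : ℤ) ∣ 5 := hg _ (Int.gcd_dvd_left x y) (Int.gcd_dvd_right x y)
      have h2 : Int.gcd x y ∣ 5 := by exact_mod_cast h1
      rcases (Nat.dvd_prime (by norm_num)).1 h2 with h3 | h3
      · exact h3
      · exfalso
        apply hd
        have ha := Int.gcd_dvd_left x y
        have hb := Int.gcd_dvd_right x y
        rw [h3] at ha hb
        exact ⟨by exact_mod_cast ha, by exact_mod_cast hb⟩
    obtain ⟨r, hr⟩ := exists_sq_of_mul_eq_sq hc h hx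
    obtain ⟨s, hs⟩ := exists_sq_of_mul_eq_sq (z := z) hc.symm (by linarith [h]) hy
    exact ⟨r, s, Or.inl ⟨hr, hs⟩⟩

lemma zmod_eight_sq (x : ZMod 8) : x ^ 2 = 0 ∨ x ^ 2 = 1 ∨ x ^ 2 = 4 := by
  revert x; decide

lemma zmod_eight_sq_of_odd {i : ℤ} (hi : Odd i) : ((i : ZMod 8)) ^ 2 = 1 := by
  obtain ⟨k, rfl⟩ := hi
  push_cast
  generalize (k : ZMod 8) = x
  revert x; decide

lemma no_class_one (a b c d i : ℤ) (hi : Odd i) (h : i = b ^ 2 - 3 * d ^ 2)
    (h1 : a ^ 2 = b ^ 2 - 5 * d ^ 2) (h2 : c ^ 2 = 5 * b ^ 2 - 9 * d ^ 2) : False := by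
  have e0 := zmod_eight_sq_of_odd hi
  have e1 := congr_arg (Int.cast : ℤ → ZMod 8) h1
  have e2 := congr_arg (Int.cast : ℤ → ZMod 8) h2
  rw [h] at e0
  push_cast at e0 e1 e2
  rcases zmod_eight_sq (b : ZMod 8) with hb | hb | hb <;>
    rcases zmod_eight_sq (d : ZMod 8) with hd | hd | hd <;>
    rcases zmod_eight_sq (a : ZMod 8) with ha | ha | ha <;>
    rcases zmod_eight_sq (c : ZMod 8) with hc | hc | hc <;>
    simp only [hb, hd, ha, hc] at e0 e1 e2 <;> revert e0 e1 e2 <;> decide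

lemma no_class_three (a b c d i : ℤ) (hi : Odd i) (h : i = 3 * b ^ 2 - d ^ 2)
    (h1 : a ^ 2 = 9 * b ^ 2 - 5 * d ^ 2) (h2 : c ^ 2 = 5 * b ^ 2 - d ^ 2) : False := by
  have e0 := zmod_eight_sq_of_odd hi
  have e1 := congr_arg (Int.cast : ℤ → ZMod 8) h1
  have e2 := congr_arg (Int.cast : ℤ → ZMod 8) h2
  rw [h] at e0
  push_cast at e0 e1 e2
  rcases zmod_eight_sq (b : ZMod 8) with hb | hb | hb <;>
    rcases zmod_eight_sq (d : ZMod 8) with hd | hd | hd <;>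
    rcases zmod_eight_sq (a : ZMod 8) with ha | ha | ha <;>
    rcases zmod_eight_sq (c : ZMod 8) with hc | hc | hc <;>
    simp only [hb, hd, ha, hc] at e0 e1 e2 <;> revert e0 e1 e2 <;> decide

/-- Package a new solution. -/
lemma next_solution {N B r C H : ℤ} (hH : H ≠ 0) (hr : Odd r) (hBH : IsCoprime B H)
    (h1 : 16 * B ^ 2 + 9 * r ^ 2 = C ^ 2) (h2 : r ^ 2 = B ^ 2 - H ^ 2) (hlt : B ^ 2 < N ^ 2) :
    ∃ A e c h : ℤ, A.natAbs < N.natAbs ∧ Odd e ∧ IsCoprime A e ∧ h ≠ 0 ∧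
      16 * A ^ 2 + 9 * e ^ 2 = c ^ 2 ∧ A ^ 2 - e ^ 2 = h ^ 2 := by
  refine ⟨B, r, C, H, by zify; exact sq_lt_sq.1 hlt, hr, ?_, hH, h1,
    by rw [h2]; ring⟩
  obtain ⟨u, v, huv⟩ := hBH.pow (m := 2) (n := 2)
  exact (IsCoprime.pow_iff (by norm_num : 0 < 2) (by norm_num : 0 < 2)).1
    ⟨u + v, -v, by rw [h2]; linear_combination huv⟩

lemma five_dvd_absurd {i j : ℤ} (hc : IsCoprime i j) (hi : (5 : ℤ) ∣ i) (hj : (5 : ℤ) ∣ j) :
    False := by
  have := Int.natAbs_of_isUnit (hc.isUnit_of_dvd' hi hj)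
  norm_num at this

lemma odd_sq_coeff {i j k r : ℤ} (hjo : Odd j) (h : 4 * i - j = k * r ^ 2) : Odd r := by
  have : Odd (4 * i - j) := by
    obtain ⟨u, hu⟩ := hjo
    exact ⟨2 * i - u - 1, by omega⟩
  rw [h] at this
  exact (Int.odd_pow' two_ne_zero).1 (Int.odd_mul.1 this).2

/-- The descent step, case `j ≡ i` mod `3`. -/
lemma descent_step_pos {i j p q : ℤ} (hi : 0 < i) (pD : 0 < j - i) (pA : 0 < 4 * i - j)
    (hio : Odd i) (hjo : Odd j) (hc : IsCoprime i j) (h3 : (3 : ℤ) ∣ j - i)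
    (k1 : (4 * i - j) * (i + j) = 6 * p ^ 2) (k2 : (4 * i + j) * (j - i) = 6 * q ^ 2)
    (hbound : i + j < (i * j) ^ 2) :
    ∃ A e c h : ℤ, A.natAbs < (i * j).natAbs ∧ Odd e ∧ IsCoprime A e ∧ h ≠ 0 ∧
      16 * A ^ 2 + 9 * e ^ 2 = c ^ 2 ∧ A ^ 2 - e ^ 2 = h ^ 2 := by
  obtain ⟨s', t', hst⟩ := id hc
  obtain ⟨b', hb'⟩ : (2 : ℤ) ∣ i + j := (hio.add_odd hjo).two_dvd
  obtain ⟨d', hd'⟩ : (2 : ℤ) ∣ j - i := (hjo.sub_odd hio).two_dvd
  obtain ⟨d, hd⟩ : (6 : ℤ) ∣ j - i := by omega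
  obtain ⟨a, ha⟩ : (3 : ℤ) ∣ 4 * i - j := by omega
  rw [ha, hb'] at k1
  rw [hd] at k2
  have g1 : ∀ x : ℤ, x ∣ a → x ∣ b' → x ∣ 5 := by
    intro x hxa hxb
    have ha' : x ∣ 4 * i - j := ha ▸ hxa.mul_left 3
    have hb'' : x ∣ i + j := hb' ▸ hxb.mul_left 2
    have : (5 : ℤ) = (s' + t' * (-1)) * (4 * i - j) + (s' + t' * 4) * (i + j) := by
      linear_combination (-5 : ℤ) * hst
    rw [this]
    exact dvd_add (ha'.mul_left _) (hb''.mul_left _)
  have g2 : ∀ x : ℤ, x ∣ 4 * i + j → x ∣ d → x ∣ 5 := by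
    intro x hxa hxb
    have hb'' : x ∣ j - i := hd ▸ hxb.mul_left 6
    have : (5 : ℤ) = (s' + t') * (4 * i + j) + (4 * t' - s') * (j - i) := by
      linear_combination (-5 : ℤ) * hst
    rw [this]
    exact dvd_add (hxa.mul_left _) (hb''.mul_left _)
  obtain ⟨r, b, hrb⟩ := sq_or_five_sq (z := p) (by omega) (by omega)
    (by linarith only [k1]) g1
  obtain ⟨c, e, hce⟩ := sq_or_five_sq (z := q) (by omega) (by omega)
    (by linarith only [k2]) g2
  rcases hrb with ⟨er, eb⟩ | ⟨er, eb⟩ <;> rcases hce with ⟨ec, ee⟩ | ⟨ec, ee⟩ <;>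
    subst er eb ee
  · exfalso
    exact no_class_one r b c e i hio (by linarith only [hb', hd])
      (by linarith only [ha, hb', hd]) (by linarith only [ec, hb', hd])
  · have hi' : i = b ^ 2 - 15 * e ^ 2 := by linarith only [hb', hd]
    have hj' : j = b ^ 2 + 15 * e ^ 2 := by linarith only [hb', hd]
    refine next_solution (B := b) (r := r) (C := 5 * c) (H := 5 * e) ?_ (odd_sq_coeff hjo ha)
      ?_ ?_ ?_ ?_
    · intro h
      rw [show e = 0 by omega] at hd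
      omega
    · exact ⟨b * (s' + t'), 3 * e * (t' - s'), by rw [hi', hj'] at hst; linarith only [hst]⟩
    · linarith only [ha, hb', hd, ec]
    · linarith only [ha, hb', hd]
    · linarith only [hb', hbound, sq_nonneg b]
  · have hi' : i = 5 * b ^ 2 - 3 * e ^ 2 := by linarith only [hb', hd]
    have hj' : j = 5 * b ^ 2 + 3 * e ^ 2 := by linarith only [hb', hd]
    refine next_solution (B := b) (r := r) (C := c) (H := e) ?_
      (odd_sq_coeff (i := i) (k := 15) hjo (by linarith only [ha])) ?_ ?_ ?_ ?_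
    · rintro rfl
      simp at hd
      omega
    · exact ⟨5 * b * (s' + t'), 3 * e * (t' - s'), by rw [hi', hj'] at hst; linarith only [hst]⟩
    · linarith only [ha, hb', hd, ec]
    · linarith only [ha, hb', hd]
    · linarith only [hb', hbound, sq_nonneg b]
  · exact (five_dvd_absurd hc (by omega) (by omega)).elim

/-- The descent step, case `j ≡ -i` mod `3`. -/
lemma descent_step_neg {i j p q : ℤ} (_hi : 0 < i) (pD : 0 < j - i) (pA : 0 < 4 * i - j)
    (hio : Odd i) (hjo : Odd j) (hc : IsCoprime i j) (h3 : (3 : ℤ) ∣ j + i)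
    (k1 : (4 * i - j) * (i + j) = 6 * p ^ 2) (k2 : (4 * i + j) * (j - i) = 6 * q ^ 2)
    (hbound : 3 * (i + j) < 2 * (i * j) ^ 2) :
    ∃ A e c h : ℤ, A.natAbs < (i * j).natAbs ∧ Odd e ∧ IsCoprime A e ∧ h ≠ 0 ∧
      16 * A ^ 2 + 9 * e ^ 2 = c ^ 2 ∧ A ^ 2 - e ^ 2 = h ^ 2 := by
  obtain ⟨s', t', hst⟩ := id hc
  obtain ⟨b', hb'⟩ : (2 : ℤ) ∣ i + j := (hio.add_odd hjo).two_dvd
  obtain ⟨d', hd'⟩ : (2 : ℤ) ∣ j - i := (hjo.sub_odd hio).two_dvd
  obtain ⟨b₁, hb₁⟩ : (6 : ℤ) ∣ i + j := by omega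
  obtain ⟨c₁, hc₁⟩ : (3 : ℤ) ∣ 4 * i + j := by omega
  rw [hb₁] at k1
  rw [hc₁, hd'] at k2
  have g1 : ∀ x : ℤ, x ∣ 4 * i - j → x ∣ b₁ → x ∣ 5 := by
    intro x ha' hxb
    have hb'' : x ∣ i + j := hb₁ ▸ hxb.mul_left 6
    have : (5 : ℤ) = (s' + t' * (-1)) * (4 * i - j) + (s' + t' * 4) * (i + j) := by
      linear_combination (-5 : ℤ) * hst
    rw [this]
    exact dvd_add (ha'.mul_left _) (hb''.mul_left _)
  have g2 : ∀ x : ℤ, x ∣ c₁ → x ∣ d' → x ∣ 5 := by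
    intro x hxa hxb
    have hc'' : x ∣ 4 * i + j := hc₁ ▸ hxa.mul_left 3
    have hb'' : x ∣ j - i := hd' ▸ hxb.mul_left 2
    have : (5 : ℤ) = (s' + t') * (4 * i + j) + (4 * t' - s') * (j - i) := by
      linear_combination (-5 : ℤ) * hst
    rw [this]
    exact dvd_add (hc''.mul_left _) (hb''.mul_left _)
  obtain ⟨r, b, hrb⟩ := sq_or_five_sq (z := p) pA (by omega) (by linarith only [k1]) g1
  obtain ⟨c, e, hce⟩ := sq_or_five_sq (z := q) (by omega) (by omega) (by linarith only [k2]) g2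
  rcases hrb with ⟨er, eb⟩ | ⟨er, eb⟩ <;> rcases hce with ⟨ec, ee⟩ | ⟨ec, ee⟩ <;>
    subst eb ec ee
  · exfalso
    exact no_class_three r b c e i hio (by linarith only [hb₁, hd'])
      (by linarith only [er, hb₁, hd']) (by linarith only [hc₁, hb₁, hd'])
  · have hi' : i = 3 * b ^ 2 - 5 * e ^ 2 := by linarith only [hb₁, hd']
    have hj' : j = 3 * b ^ 2 + 5 * e ^ 2 := by linarith only [hb₁, hd']
    refine next_solution (B := 3 * b) (r := r) (C := 15 * c) (H := 5 * e) ?_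
      (odd_sq_coeff (i := i) (k := 1) hjo (by linarith only [er])) ?_ ?_ ?_ ?_
    · intro h
      rw [show e = 0 by omega] at hd'
      omega
    · exact ⟨b * (s' + t'), e * (t' - s'), by rw [hi', hj'] at hst; linarith only [hst]⟩
    · linarith only [er, hb₁, hd', hc₁]
    · linarith only [er, hb₁, hd']
    · linarith only [hb₁, hbound, sq_nonneg b]
  · have hi' : i = 15 * b ^ 2 - e ^ 2 := by linarith only [hb₁, hd']
    have hj' : j = 15 * b ^ 2 + e ^ 2 := by linarith only [hb₁, hd']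
    refine next_solution (B := 3 * b) (r := r) (C := 3 * c) (H := e) ?_
      (odd_sq_coeff hjo er) ?_ ?_ ?_ ?_
    · rintro rfl
      simp at hd'
      omega
    · exact ⟨5 * b * (s' + t'), e * (t' - s'), by rw [hi', hj'] at hst; linarith only [hst]⟩
    · linarith only [er, hb₁, hd', hc₁]
    · linarith only [er, hb₁, hd']
    · linarith only [hb₁, hbound, sq_nonneg b]
  · exact (five_dvd_absurd hc (by omega) (by omega)).elim

/-- The descent step. -/
lemma descent_step {i j p q : ℤ} (hi : 0 < i) (hj : 0 < j) (hio : Odd i) (hjo : Odd j)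
    (hc : IsCoprime i j) (hp : p ≠ 0) (hq : q ≠ 0) (h1 : i * j = p ^ 2 + q ^ 2)
    (h2 : 4 * i ^ 2 - j ^ 2 = 3 * (p ^ 2 - q ^ 2)) :
    ∃ A e c h : ℤ, A.natAbs < (i * j).natAbs ∧ Odd e ∧ IsCoprime A e ∧ h ≠ 0 ∧
      16 * A ^ 2 + 9 * e ^ 2 = c ^ 2 ∧ A ^ 2 - e ^ 2 = h ^ 2 := by
  have hp2 : 0 < p ^ 2 := by positivity
  have hq2 : 0 < q ^ 2 := by positivity
  have k1 : (4 * i - j) * (i + j) = 6 * p ^ 2 := by linarith only [h1, h2]
  have k2 : (4 * i + j) * (j - i) = 6 * q ^ 2 := by linarith only [h1, h2]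
  have pA : 0 < 4 * i - j := pos_of_mul_pos_left (by rw [k1]; linarith only [hp2]) (by omega)
  have pD : 0 < j - i := pos_of_mul_pos_right (by rw [k2]; linarith only [hq2]) (by omega)
  have hj3 : 3 ≤ j := by
    have := Int.odd_iff.1 hio
    have := Int.odd_iff.1 hjo
    omega
  have hsum : i + j ≤ i * j + 1 := by nlinarith only [hi, hj3]
  have hij3 : 3 ≤ i * j := by nlinarith only [hi, hj3]
  have hdvd : (3 : ℤ) ∣ (j - i) * (j + i) :=
    ⟨i ^ 2 - (p ^ 2 - q ^ 2), by linarith only [h2]⟩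
  rcases (Int.prime_iff_natAbs_prime.2 (by norm_num) : Prime (3 : ℤ)).dvd_mul.1 hdvd with
    h3 | h3
  · exact descent_step_pos hi pD pA hio hjo hc h3 k1 k2 (by nlinarith only [hsum, hij3])
  · exact descent_step_neg hi pD pA hio hjo hc h3 k1 k2 (by nlinarith only [hsum, hij3])

/-- No nontrivial solution of `16 A² + 9 e² = c²`, `A² - e² = h²`. -/
lemma descent_main (n : ℕ) : ∀ A e c h : ℤ, A.natAbs = n → Odd e → IsCoprime A e → h ≠ 0 →
    16 * A ^ 2 + 9 * e ^ 2 = c ^ 2 → A ^ 2 - e ^ 2 = h ^ 2 → False := by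
  induction n using Nat.strong_induction_on with
  | _ n ih =>
  intro A e c h hn he hAe hh hc hA
  wlog hA0 : 0 ≤ A generalizing A
  · exact this (-A) (by simpa using hn) hAe.neg_left (by simpa using hc) (by simpa using hA)
      (by omega)
  wlog hc0 : 0 ≤ c generalizing c
  · exact this (-c) (by simpa using hc) (by omega)
  have hh2 : 0 < h ^ 2 := by positivity
  have hlt : e ^ 2 < A ^ 2 := by linarith
  obtain ⟨hlo, hhi⟩ := abs_lt.1 (abs_lt_of_sq_lt_sq hlt hA0)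
  have he2 : e ^ 2 % 4 = 1 := by
    obtain ⟨k, rfl⟩ := he; ring_nf; omega
  have hAo : Odd A := by
    by_contra hev
    obtain ⟨k, hk⟩ := Int.not_odd_iff_even.1 hev
    have h1 : h ^ 2 % 4 = 3 := by
      rw [← hA, hk]; ring_nf; omega
    rcases Int.even_or_odd h with ⟨l, rfl⟩ | ⟨l, rfl⟩ <;> ring_nf at h1 <;> omega
  obtain ⟨u, hu⟩ : (2 : ℤ) ∣ A + e := (hAo.add_odd he).two_dvd
  obtain ⟨v, hv⟩ : (2 : ℤ) ∣ A - e := (hAo.sub_odd he).two_dvd
  obtain ⟨h', rfl⟩ : (2 : ℤ) ∣ h :=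
    Int.prime_two.dvd_of_dvd_pow (n := 2) ⟨u * (A - e), by rw [← hA]; linear_combination (A - e) * hu⟩
  have huv : u * v = h' ^ 2 := by
    have : (2 * u) * (2 * v) = (2 * h') ^ 2 := by rw [← hu, ← hv, ← hA]; ring
    linarith
  have cuv : IsCoprime u v := by
    obtain ⟨x, y, hxy⟩ := id hAe
    exact ⟨x + y, x - y, by
      have hA' : A = u + v := by omega
      have he' : e = u - v := by omega
      rw [hA', he'] at hxy; linarith⟩
  obtain ⟨p, hp⟩ := exists_sq_of_mul_eq_sq cuv huv (by omega)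
  obtain ⟨q, hq⟩ := exists_sq_of_mul_eq_sq (z := h') cuv.symm (by linarith [huv]) (by omega)
  have hp0 : p ≠ 0 := by rintro rfl; simp at hp; omega
  have hq0 : q ≠ 0 := by rintro rfl; simp at hq; omega
  have h3A : ¬ (3 : ℤ) ∣ A := by
    rintro ⟨k, hk⟩
    have h3e : ¬ (3 : ℤ) ∣ e := fun h3 => by
      obtain ⟨x, y, hxy⟩ := id hAe
      have : (3 : ℤ) ∣ 1 := hxy ▸ dvd_add (dvd_mul_of_dvd_right ⟨k, hk⟩ _)
        (dvd_mul_of_dvd_right h3 _)
      norm_num at this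
    have h1 : ((2 * h') ^ 2 + e ^ 2) % 3 = 0 := by
      rw [show (2 * h') ^ 2 + e ^ 2 = A ^ 2 by linarith, hk]; ring_nf; omega
    have h2 : e % 3 = 1 ∨ e % 3 = 2 := by omega
    have h4 : (2 * h') % 3 = 0 ∨ (2 * h') % 3 = 1 ∨ (2 * h') % 3 = 2 := by omega
    rw [Int.add_emod, pow_two, pow_two, Int.mul_emod, Int.mul_emod e] at h1
    rcases h2 with h2 | h2 <;> rcases h4 with h4 | h4 | h4 <;> rw [h2, h4] at h1 <;>
      norm_num at h1
  have hco : Odd c := by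
    have : Odd (c ^ 2) := by
      rw [← hc]
      obtain ⟨k, rfl⟩ := he
      exact ⟨8 * A ^ 2 + 18 * k ^ 2 + 18 * k + 4, by ring⟩
    exact (Int.odd_pow' two_ne_zero).1 this
  have h3e' : Odd (3 * e) := Int.odd_mul.2 ⟨by decide, he⟩
  obtain ⟨U, hU⟩ : (2 : ℤ) ∣ c + 3 * e := (hco.add_odd h3e').two_dvd
  obtain ⟨V, hV⟩ : (2 : ℤ) ∣ c - 3 * e := (hco.sub_odd h3e').two_dvd
  have hUV : U * V = (2 * A) ^ 2 := by
    have : (2 * U) * (2 * V) = c ^ 2 - 9 * e ^ 2 := by rw [← hU, ← hV]; ring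
    linarith
  have hdiff : U - V = 3 * e := by omega
  have cUV : IsCoprime U V := by
    have h31 : IsCoprime (3 : ℤ) A :=
      (Int.prime_iff_natAbs_prime.2 (by norm_num) : Prime (3 : ℤ)).coprime_iff_not_dvd.2 h3A
    have h21 : IsCoprime (3 * e) (2 : ℤ) :=
      (Int.prime_two.coprime_iff_not_dvd.2 (fun hdiv => by
        obtain ⟨k, hk⟩ := h3e'; omega)).symm
    have h1 : IsCoprime (3 * e) (U * V) := by
      rw [hUV]
      exact (h21.mul_right (h31.mul_left hAe.symm)).pow_right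
    obtain ⟨x, y, hxy⟩ := h1.of_mul_right_left
    exact ⟨x + y, -x, by rw [← hdiff] at hxy; linarith⟩
  have h3e2 : 3 * e < c ∧ -c < 3 * e := by
    have : (3 * e) ^ 2 < c ^ 2 := by nlinarith
    obtain ⟨a1, a2⟩ := abs_lt.1 (abs_lt_of_sq_lt_sq this hc0)
    exact ⟨a2, a1⟩
  obtain ⟨M₀, hM₀⟩ := exists_sq_of_mul_eq_sq cUV hUV (by omega)
  obtain ⟨N₀, hN₀⟩ := exists_sq_of_mul_eq_sq (z := 2 * A) cUV.symm (by linarith [hUV]) (by omega)
  have hM : U = |M₀| ^ 2 := by rw [sq_abs]; exact hM₀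
  have hN : V = |N₀| ^ 2 := by rw [sq_abs]; exact hN₀
  have hM0 := abs_nonneg M₀
  have hN0 := abs_nonneg N₀
  generalize |M₀| = M at hM hM0
  generalize |N₀| = N at hN hN0
  have hMN : M * N = 2 * A := by
    have : (M * N) ^ 2 = (2 * A) ^ 2 := by rw [← hUV, hM, hN]; ring
    exact (pow_left_inj₀ (by positivity) (by positivity) two_ne_zero).1 this
  have cMN : IsCoprime M N := by
    have := cUV
    rw [hM, hN] at this
    exact (IsCoprime.pow_iff (by norm_num) (by norm_num)).1 this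
  have hApq : A = p ^ 2 + q ^ 2 := by omega
  have hepq : e = p ^ 2 - q ^ 2 := by omega
  have fin : ∀ i j p q : ℤ, 0 ≤ i → 0 ≤ j → IsCoprime i j → p ≠ 0 → q ≠ 0 → i * j = A →
      A = p ^ 2 + q ^ 2 → 4 * i ^ 2 - j ^ 2 = 3 * (p ^ 2 - q ^ 2) → False := by
    intro i j p q hi hj hij hp hq hAij hApq h4
    have hA1 : A ≠ 0 := by rintro rfl; simp at hAo
    have hoo := Int.odd_mul.1 (hAij ▸ hAo)
    have hi' : 0 < i := lt_of_le_of_ne hi (fun h => hA1 (by rw [← hAij, ← h]; ring))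
    have hj' : 0 < j := lt_of_le_of_ne hj (fun h => hA1 (by rw [← hAij, ← h]; ring))
    obtain ⟨A', e', c', h'', hlt', he', hco', hh', hc', hA'⟩ :=
      descent_step hi' hj' hoo.1 hoo.2 hij hp hq (hAij.trans hApq) h4
    exact ih A'.natAbs (by rw [← hn, ← hAij]; exact hlt') A' e' c' h'' rfl he' hco' hh' hc' hA'
  rcases Int.even_or_odd M with ⟨i, hi⟩ | hMo
  · refine fin i N p q (by omega) hN0 ?_ hp0 hq0 ?_ hApq ?_
    · exact IsCoprime.of_mul_left_right (x := 2) (by rw [show 2 * i = M by omega]; exact cMN)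
    · rw [hi] at hMN; linarith
    · rw [← hepq, ← hdiff, hM, hN, hi]; ring
  · rcases Int.even_or_odd N with ⟨i, hi⟩ | hNo
    · refine fin i M q p (by omega) hM0 ?_ hq0 hp0 ?_ (by linarith) ?_
      · exact IsCoprime.of_mul_left_right (x := 2)
          (by rw [show 2 * i = N by omega]; exact cMN.symm)
      · rw [hi] at hMN; linarith
      · have : U - V = 3 * (p ^ 2 - q ^ 2) := by rw [hdiff, hepq]
        rw [hM, hN, hi] at this
        linarith
    · have := hMo.mul hNo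
      rw [hMN] at this
      exact absurd (Int.odd_mul.1 this).1 (by decide)

/-- Rational points of the system `a² + 9 e² = f²`, `a² - 16 e² = g²`. -/
theorem concordant_trivial {a e f g : ℚ} (h1 : a ^ 2 + 9 * e ^ 2 = f ^ 2)
    (h2 : a ^ 2 - 16 * e ^ 2 = g ^ 2) : e = 0 ∨ g = 0 := by
  by_contra hne
  simp only [not_or] at hne
  obtain ⟨he, hg⟩ := hne
  obtain ⟨f₁, hf₁⟩ : ∃ z : ℚ, z = f / e := ⟨_, rfl⟩
  set r : ℚ := a / e with hr
  have key : ∀ z : ℚ, ∀ k : ℤ, r ^ 2 + k = z ^ 2 →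
      ∃ w : ℤ, r.num ^ 2 + k * (r.den : ℤ) ^ 2 = w ^ 2 ∧ (z ≠ 0 → w ≠ 0) := by
    intro z k hz
    have hsq : IsSquare ((r.num ^ 2 + k * (r.den : ℤ) ^ 2 : ℤ) : ℚ) := by
      refine ⟨z * r.den, ?_⟩
      push_cast
      rw [← Rat.mul_den_eq_num]
      linear_combination (r.den : ℚ) ^ 2 * hz
    rw [Rat.isSquare_intCast_iff] at hsq
    obtain ⟨w, hw⟩ := hsq
    refine ⟨w, by rw [hw]; ring, fun hz0 hw0 => hz0 ?_⟩
    have : ((r.num ^ 2 + k * (r.den : ℤ) ^ 2 : ℤ) : ℚ) = z ^ 2 * (r.den : ℚ) ^ 2 := by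
      push_cast
      rw [← Rat.mul_den_eq_num]
      linear_combination (r.den : ℚ) ^ 2 * hz
    rw [hw, hw0] at this
    simpa [r.den_nz] using this.symm
  obtain ⟨F, hF, -⟩ := key (f / e) 9 (by rw [hr]; push_cast; field_simp; linarith)
  obtain ⟨G, hG, hG0⟩ := key (g / e) (-16) (by rw [hr]; push_cast; field_simp; linarith)
  replace hG0 := hG0 (div_ne_zero hg he)
  have hcop : IsCoprime r.num (r.den : ℤ) := by
    rw [Int.isCoprime_iff_gcd_eq_one]; simpa [Int.gcd] using r.reduced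
  have hd0 : (r.den : ℤ) ≠ 0 := by exact_mod_cast r.den_nz
  generalize r.num = A at hF hG hcop
  generalize (r.den : ℤ) = D at hF hG hcop hd0
  rcases Int.even_or_odd A with ⟨k, hk⟩ | hAo
  · have hDo : Odd D := by
      by_contra hev
      obtain ⟨l, hl⟩ := Int.not_odd_iff_even.1 hev
      obtain ⟨x, y, hxy⟩ := hcop
      rw [hk, hl] at hxy
      ring_nf at hxy
      omega
    obtain ⟨l, hl⟩ : (2 : ℤ) ∣ k := by
      by_contra hk2
      have hko : Odd k := Int.odd_iff.2 (by omega)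
      obtain ⟨u, rfl⟩ := hko
      obtain ⟨v, rfl⟩ := hDo
      obtain ⟨u', hu'⟩ := Int.even_mul_succ_self u
      obtain ⟨v', hv'⟩ := Int.even_mul_succ_self v
      have h8 : F ^ 2 % 8 = 5 := by
        rw [← hF, hk]; ring_nf at hu' hv' ⊢; omega
      rcases Int.even_or_odd F with ⟨w, rfl⟩ | ⟨w, rfl⟩
      · ring_nf at h8; omega
      · obtain ⟨w', hw'⟩ := Int.even_mul_succ_self w
        ring_nf at hw' h8; omega
    have hA4 : A = 4 * l := by omega
    subst hA4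
    obtain ⟨G', rfl⟩ : (4 : ℤ) ∣ G :=
      (Int.pow_dvd_pow_iff two_ne_zero).1 ⟨l ^ 2 - D ^ 2, by rw [← hG]; ring⟩
    exact descent_main l.natAbs l D F G' rfl hDo hcop.of_mul_left_right
      (by simpa using hG0) (by rw [← hF]; ring) (by linarith)
  · have hGo : Odd G := by
      refine (Int.odd_pow' two_ne_zero).1 (?_ : Odd (G ^ 2))
      rw [← hG]
      obtain ⟨u, rfl⟩ := hAo
      exact ⟨2 * u ^ 2 + 2 * u - 8 * D ^ 2, by ring⟩
    have h5 : Prime (5 : ℤ) := Int.prime_iff_natAbs_prime.2 (by norm_num)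
    by_cases hd : (5 : ℤ) ∣ F ∧ (5 : ℤ) ∣ G
    · obtain ⟨⟨F', rfl⟩, ⟨G', rfl⟩⟩ := hd
      have hFG : IsCoprime F' G' := by
        obtain ⟨x, y, hxy⟩ := hcop.pow (m := 2) (n := 2)
        refine IsCoprime.pow_iff (by norm_num : 0 < 2) (by norm_num : 0 < 2) |>.1
          ⟨16 * x + y, 9 * x - y, ?_⟩
        have hD : D ^ 2 = F' ^ 2 - G' ^ 2 := by linarith
        have hA : A ^ 2 = 16 * F' ^ 2 + 9 * G' ^ 2 := by linarith
        rw [hA, hD] at hxy
        linarith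
      exact descent_main F'.natAbs F' G' A D rfl (Int.odd_mul.1 hGo).2 hFG hd0 (by linarith)
        (by linarith)
    · have hFG : IsCoprime F G := by
        refine isCoprime_of_prime_dvd (fun hz => hG0 hz.2) ?_
        intro z hz hzF hzG
        have hz1 : z ∣ F ^ 2 := dvd_pow hzF two_ne_zero
        have hz2 : z ∣ G ^ 2 := dvd_pow hzG two_ne_zero
        have hzA : z ∣ 5 ^ 2 * A ^ 2 := by
          rw [show (5 : ℤ) ^ 2 * A ^ 2 = 16 * F ^ 2 + 9 * G ^ 2 by linarith]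
          exact dvd_add (hz1.mul_left _) (hz2.mul_left _)
        have hzD : z ∣ 5 ^ 2 * D ^ 2 := by
          rw [show (5 : ℤ) ^ 2 * D ^ 2 = F ^ 2 - G ^ 2 by linarith]
          exact dvd_sub hz1 hz2
        rcases hz.dvd_mul.1 hzA with hA' | hA'
        · have := hz.associated_of_dvd h5 (hz.dvd_of_dvd_pow hA')
          exact hd ⟨this.symm.dvd.trans hzF, this.symm.dvd.trans hzG⟩
        rcases hz.dvd_mul.1 hzD with hD' | hD'
        · have := hz.associated_of_dvd h5 (hz.dvd_of_dvd_pow hD')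
          exact hd ⟨this.symm.dvd.trans hzF, this.symm.dvd.trans hzG⟩
        exact hz.not_isUnit (hcop.isUnit_of_dvd' (hz.dvd_of_dvd_pow hA') (hz.dvd_of_dvd_pow hD'))
      exact descent_main F.natAbs F G (5 * A) (5 * D) rfl hGo hFG (by simpa using hd0)
        (by linarith) (by linarith)

end FermatAgent.X015
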