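import Fermat.Agent.X015.Descent

/-!
Elimination: the fibre product of `X₀(3)` and `X₀(5)` over the `j`-line maps to the
elliptic curve treated in `Descent`, and its rational non-cuspidal points have
`s ∈ {-40, -25/8, -25/2, -10}`.
-/

set_option autoImplicit false

namespace FermatAgent.X015

section Plane

variable (s w : ℚ)

/-- Numerator (up to the factor `9`) of the degree two function on `X₀(15)`. -/
def numB : ℚ := s * w ^ 2 + 2 * s * w - 4 * s + w ^ 2 - 2 * w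

/-- Denominator of the degree two function on `X₀(15)`. -/
def denB : ℚ :=
  s ^ 2 - 9 * s * w + 13 * s + 9 * w ^ 2 - 9 * w - 10

/-- Square root of the discriminant, cleared of denominators. -/
def sqrtDisc : ℚ :=
  - s ^ 4 - 5 * s ^ 3 * w ^ 2 - 3 * s ^ 3 * w + 5 * s ^ 3 - 5 * s ^ 2 * w ^ 2 - 22 * s ^ 2 * w
  + 45 * s ^ 2 - 27 * s * w ^ 4 - 108 * s * w ^ 3 + 281 * s * w ^ 2 + 17 * s * w - 85 * s
  + 27 * w ^ 5 + 81 * w ^ 4 - 324 * w ^ 3 - 15 * w ^ 2 + 280 * w + 100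

/-- A plane model of `X₀(15)`. -/
def planeEq : Prop :=
  (w ^ 3 - s) * (s ^ 2 + 10 * s + 5) - 3 * w * (w ^ 3 + 8 * s) = 0

end Plane

variable {s w : ℚ}

lemma disc_identity (h : planeEq s w) :
    (9 * numB s w ^ 2 + 5 * numB s w * denB s w + denB s w ^ 2) ^ 2
      + 4 * (numB s w * denB s w) ^ 2 = sqrtDisc s w ^ 2 := by
  unfold planeEq at h
  simp only [numB, denB, sqrtDisc]
  linear_combination (22 * s ^ 4 * w - 22 * s ^ 4 + 90 * s ^ 3 * w ^ 3 - 225 * s ^ 3 * w ^ 2 + 146 * s ^ 3 * w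
    - 11 * s ^ 3 + 81 * s ^ 2 * w ^ 5 - 162 * s ^ 2 * w ^ 4 + 711 * s ^ 2 * w ^ 3
    - 2436 * s ^ 2 * w ^ 2 + 2786 * s ^ 2 * w - 1100 * s ^ 2 + 324 * s * w ^ 5
    - 2538 * s * w ^ 4 + 5688 * s * w ^ 3 - 3489 * s * w ^ 2 - 1850 * s * w + 1925 * s
    + 243 * w ^ 6 + 1863 * w ^ 5 - 6723 * w ^ 4 + 1647 * w ^ 3 + 5910 * w ^ 2 - 200 * w
    - 1000) * h

lemma quartic_ne_zero (s : ℚ) : s ^ 4 + 8 * s ^ 3 + 14 * s ^ 2 - 8 * s + 1 ≠ 0 := by
  intro h
  have hint : IsIntegral ℤ s := by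
    refine ⟨Polynomial.X ^ 4 + Polynomial.C 8 * Polynomial.X ^ 3 + Polynomial.C 14 *
      Polynomial.X ^ 2 - Polynomial.C 8 * Polynomial.X + Polynomial.C 1, ?_, ?_⟩
    · monicity!
    · simp; linarith
  obtain ⟨m, rfl⟩ := IsIntegrallyClosed.isIntegral_iff.1 hint
  have hm : m * (m ^ 3 + 8 * m ^ 2 + 14 * m - 8) = -1 := by
    have h' : ((m * (m ^ 3 + 8 * m ^ 2 + 14 * m - 8) : ℤ) : ℚ) = ((-1 : ℤ) : ℚ) := by
      simp only [eq_intCast] at h
      push_cast; linarith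
    exact_mod_cast h'
  rcases Int.eq_one_or_neg_one_of_mul_eq_neg_one hm with rfl | rfl <;> norm_num at hm

set_option maxHeartbeats 800000 in
lemma resultant_Q (h : planeEq s w) (hK : denB s w = 0) :
    s = 0 ∨ s = -40 := by
  unfold planeEq at h
  simp only [denB] at hK
  have hR : 9 * s * (s + 40) * (s ^ 4 + 8 * s ^ 3 + 14 * s ^ 2 - 8 * s + 1) ^ 2 = 0 := by
    linear_combination (5103 * s ^ 5 - 5832 * s ^ 4 * w + 36936 * s ^ 4 - 46656 * s ^ 3 * w + 40338 * s ^ 3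
      - 81648 * s ^ 2 * w - 95256 * s ^ 2 + 46656 * s * w + 36207 * s - 5832 * w - 3888) * h +
      (9 * s ^ 8 + 81 * s ^ 7 * w + 387 * s ^ 7 + 648 * s ^ 6 * w ^ 2 + 2511 * s ^ 6 * w
        + 6750 * s ^ 6 + 11421 * s ^ 5 * w ^ 2 + 26568 * s ^ 5 * w + 39078 * s ^ 5
        - 1944 * s ^ 4 * w ^ 3 + 58968 * s ^ 4 * w ^ 2 + 109674 * s ^ 4 * w + 70209 * s ^ 4
        - 15552 * s ^ 3 * w ^ 3 + 82134 * s ^ 3 * w ^ 2 + 132597 * s ^ 3 * w - 5805 * s ^ 3
        - 27216 * s ^ 2 * w ^ 3 - 49248 * s ^ 2 * w ^ 2 - 82377 * s ^ 2 * w - 11160 * s ^ 2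
        + 15552 * s * w ^ 3 + 6237 * s * w ^ 2 + 10530 * s * w + 1908 * s - 1944 * w ^ 3) * hK
  simp only [mul_eq_zero, pow_eq_zero_iff two_ne_zero, quartic_ne_zero, or_false] at hR
  grind

set_option maxHeartbeats 800000 in
lemma resultant_U (h : planeEq s w) (hK : numB s w = 0) :
    s = 0 ∨ s = -40 := by
  unfold planeEq at h
  simp only [numB] at hK
  have hR : s * (s + 40) * (s ^ 4 + 8 * s ^ 3 + 14 * s ^ 2 - 8 * s + 1) ^ 2 = 0 := by
    linear_combination (- s ^ 7 - 8 * s ^ 6 * w - 38 * s ^ 6 - 68 * s ^ 5 * w - 243 * s ^ 5 - 140 * s ^ 4 * w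
      - 332 * s ^ 4 + 40 * s ^ 3 * w + 329 * s ^ 3 + 80 * s ^ 2 * w - 230 * s ^ 2
      - 36 * s * w + 75 * s + 4 * w - 8) * h +
      (s ^ 8 * w - 2 * s ^ 8 + 8 * s ^ 7 * w ^ 2 + 31 * s ^ 7 * w - 26 * s ^ 7
        + 137 * s ^ 6 * w ^ 2 + 339 * s ^ 6 * w - 234 * s ^ 6 - 24 * s ^ 5 * w ^ 3
        + 657 * s ^ 5 * w ^ 2 + 1477 * s ^ 5 * w - 1046 * s ^ 5 - 180 * s ^ 4 * w ^ 3
        + 626 * s ^ 4 * w ^ 2 + 2071 * s ^ 4 * w - 998 * s ^ 4 - 240 * s ^ 3 * w ^ 3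
        - 1282 * s ^ 3 * w ^ 2 - 615 * s ^ 3 * w + 2202 * s ^ 3 + 360 * s ^ 2 * w ^ 3
        + 105 * s ^ 2 * w ^ 2 - 139 * s ^ 2 * w - 814 * s ^ 2 - 120 * s * w ^ 3
        + 121 * s * w ^ 2 + 35 * s * w + 86 * s + 12 * w ^ 3 - 20 * w ^ 2) * hK
  simp only [mul_eq_zero, pow_eq_zero_iff two_ne_zero, quartic_ne_zero, or_false] at hR
  grind

set_option maxHeartbeats 800000 in
lemma resultant_negTwo (h : planeEq s w) (hK : 9 * numB s w + 2 * denB s w = 0) :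
    s = -40 ∨ s = -25 / 8 := by
  unfold planeEq at h
  simp only [numB, denB] at hK
  have hR : 9 * (s + 40) ^ 2 * (8 * s + 25) * (s ^ 4 + 8 * s ^ 3 + 14 * s ^ 2 - 8 * s + 1) ^ 2 = 0 := by
    linear_combination (1458 * s ^ 7 * w - 6561 * s ^ 7 + 20412 * s ^ 6 * w - 156978 * s ^ 6 + 182250 * s ^ 5 * w
      - 1298835 * s ^ 5 + 1081836 * s ^ 4 * w - 5043708 * s ^ 4 + 3106998 * s ^ 3 * w
      - 9684279 * s ^ 3 + 2580660 * s ^ 2 * w - 6443874 * s ^ 2 - 1797714 * s * w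
      + 4947723 * s + 236196 * w - 664848) * h +
      (36 * s ^ 9 - 162 * s ^ 8 * w ^ 2 + 729 * s ^ 8 * w + 468 * s ^ 8 - 3402 * s ^ 7 * w ^ 2
        + 21789 * s ^ 7 * w + 9198 * s ^ 7 + 486 * s ^ 6 * w ^ 3 - 35721 * s ^ 6 * w ^ 2
        + 242757 * s ^ 6 * w + 128358 * s ^ 6 + 5346 * s ^ 5 * w ^ 3
        - 277263 * s ^ 5 * w ^ 2 + 1216701 * s ^ 5 * w + 957456 * s ^ 5
        + 44712 * s ^ 4 * w ^ 3 - 1228284 * s ^ 4 * w ^ 2 + 2653803 * s ^ 4 * w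
        + 3377880 * s ^ 4 + 226476 * s ^ 3 * w ^ 3 - 2157516 * s ^ 3 * w ^ 2
        + 1675647 * s ^ 3 * w + 3694230 * s ^ 3 + 356238 * s ^ 2 * w ^ 3
        - 243405 * s ^ 2 * w ^ 2 - 721305 * s ^ 2 * w - 2684322 * s ^ 2 - 208494 * s * w ^ 3
        + 544725 * s * w ^ 2 - 99225 * s * w + 456552 * s + 26244 * w ^ 3 - 82620 * w ^ 2
        + 32400 * w - 18000) * hK
  simp only [mul_eq_zero, pow_eq_zero_iff two_ne_zero, quartic_ne_zero, or_false] at hR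
  grind

set_option maxHeartbeats 800000 in
lemma resultant_negNineHalves (h : planeEq s w) (hK : 2 * numB s w + denB s w = 0) :
    s = -40 ∨ s = -25 / 2 ∨ s = -10 := by
  unfold planeEq at h
  simp only [numB, denB] at hK
  have hR : (s + 40) * (2 * s + 25) * (s + 10) * (s ^ 4 + 8 * s ^ 3 + 14 * s ^ 2 - 8 * s + 1) ^ 2 = 0 := by
    linear_combination (8 * s ^ 7 * w - 56 * s ^ 7 + 152 * s ^ 6 * w - 1418 * s ^ 6 + 710 * s ^ 5 * w
      - 13755 * s ^ 5 - 1594 * s ^ 4 * w - 65978 * s ^ 4 - 17492 * s ^ 3 * w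
      - 154514 * s ^ 3 - 25860 * s ^ 2 * w - 115494 * s ^ 2 + 15206 * s * w + 84053 * s
      - 1914 * w - 11158) * h +
      (2 * s ^ 9 - 4 * s ^ 8 * w ^ 2 + 18 * s ^ 8 * w + 91 * s ^ 8 - 94 * s ^ 7 * w ^ 2
        + 623 * s ^ 7 * w + 1821 * s ^ 7 + 12 * s ^ 6 * w ^ 3 - 672 * s ^ 6 * w ^ 2
        + 8279 * s ^ 6 * w + 18306 * s ^ 6 + 162 * s ^ 5 * w ^ 3 - 1081 * s ^ 5 * w ^ 2
        + 52272 * s ^ 5 * w + 90802 * s ^ 5 + 174 * s ^ 4 * w ^ 3 + 1742 * s ^ 4 * w ^ 2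
        + 153416 * s ^ 4 * w + 200715 * s ^ 4 - 3348 * s ^ 3 * w ^ 3 - 11412 * s ^ 3 * w ^ 2
        + 147419 * s ^ 3 * w + 111605 * s ^ 3 - 7824 * s ^ 2 * w ^ 3 - 44900 * s ^ 2 * w ^ 2
        - 74805 * s ^ 2 * w - 109264 * s ^ 2 + 4242 * s * w ^ 3 + 23035 * s * w ^ 2
        + 1750 * s * w + 20874 * s - 522 * w ^ 3 - 2790 * w ^ 2 + 1300 * w - 1000) * hK
  simp only [mul_eq_zero, pow_eq_zero_iff two_ne_zero, quartic_ne_zero, or_false] at hR
  grind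

/-- The quartic `(B² + 5B + 9)² + 4B²` is a square only at the torsion points. -/
lemma hyperelliptic_points {B r : ℚ} (h : r ^ 2 = (B ^ 2 + 5 * B + 9) ^ 2 + 4 * B ^ 2) :
    B = 0 ∨ B = -2 ∨ B = -9 / 2 := by
  obtain ⟨X, hX⟩ : ∃ X, X = (B ^ 2 + 5 * B + 9 + r) / 2 := ⟨_, rfl⟩
  have hr : r = 2 * X - (B ^ 2 + 5 * B + 9) := by linarith
  subst hr
  have hq : B ^ 2 * (X + 1) + 5 * B * X + 9 * X - X ^ 2 = 0 := by linarith
  obtain ⟨x, hx⟩ : ∃ x, x = 4 * X := ⟨_, rfl⟩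
  obtain ⟨y, hy⟩ : ∃ y, y = 4 * (2 * (X + 1) * B + 5 * X) := ⟨_, rfl⟩
  have hy2 : y ^ 2 = x * (x + 9) * (x - 16) := by
    subst hx hy; linear_combination 64 * (X + 1) * hq
  rcases concordant_trivial (a := x ^ 2 + 144) (e := 2 * y) (f := x ^ 2 + 18 * x - 144)
    (g := x ^ 2 - 32 * x - 144) (by linear_combination 36 * hy2)
    (by linear_combination -64 * hy2) with he | hg
  · obtain rfl : y = 0 := by linarith
    have : x * (x + 9) * (x - 16) = 0 := by rw [← hy2]; norm_num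
    rcases mul_eq_zero.1 this with h1 | h1
    · rcases mul_eq_zero.1 h1 with h2 | h2
      · obtain rfl : X = 0 := by linarith
        left
        have : B ^ 2 = 0 := by linarith
        exact pow_eq_zero_iff two_ne_zero |>.1 this
      · obtain rfl : X = -9 / 4 := by linarith
        right; right
        linarith
    · obtain rfl : X = 4 := by linarith
      right; left
      linarith
  · have : (x - 36) * (x + 4) = 0 := by linarith
    rcases mul_eq_zero.1 this with h2 | h2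
    · obtain rfl : X = 9 := by linarith
      have : B * (2 * B + 9) = 0 := by linarith
      rcases mul_eq_zero.1 this with h3 | h3
      · exact Or.inl h3
      · right; right; linarith
    · obtain rfl : X = -1 := by linarith
      right; left; linarith

/-- Rational points of the plane model. -/
theorem planeEq_points (h : planeEq s w) (hs : s ≠ 0) :
    s = -40 ∨ s = -25 / 8 ∨ s = -25 / 2 ∨ s = -10 := by
  by_cases hQ : denB s w = 0
  · have := resultant_Q h hQ; tauto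
  have hd := disc_identity h
  have key : (9 * sqrtDisc s w / denB s w ^ 2) ^ 2 =
      ((9 * numB s w / denB s w) ^ 2 + 5 * (9 * numB s w / denB s w) + 9) ^ 2
        + 4 * (9 * numB s w / denB s w) ^ 2 := by
    field_simp
    linear_combination -hd
  rcases hyperelliptic_points key with hB | hB | hB
  · have hU : numB s w = 0 := by
      field_simp at hB; linarith
    have := resultant_U h hU; tauto
  · have hU : 9 * numB s w + 2 * denB s w = 0 := by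
      field_simp at hB; linarith
    have := resultant_negTwo h hU; tauto
  · have hU : 2 * numB s w + denB s w = 0 := by
      field_simp at hB; linarith
    have := resultant_negNineHalves h hU; tauto

/-- The fibre product of `X₀(3)` (parameter `r`) and `X₀(5)` (parameter `s`). -/
theorem fibreProduct_points {r : ℚ} (hr : r ≠ 0) (hr9 : 9 * r - 1 ≠ 0) (hs : s ≠ 0)
    (h : -110592 * r ^ 3 * s = (s ^ 2 + 10 * s + 5) ^ 3 * ((r - 1) ^ 3 * (9 * r - 1))) :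
    s = -40 ∨ s = -25 / 8 ∨ s = -25 / 2 ∨ s = -10 := by
  obtain ⟨w, hw⟩ : ∃ w, w = (s ^ 2 + 10 * s + 5) * (1 - r) / (24 * r) := ⟨_, rfl⟩
  have h1 : 24 * r * w = (s ^ 2 + 10 * s + 5) * (1 - r) := by
    rw [hw]; field_simp
  have h2 : w ^ 3 * (9 * r - 1) = 8 * s := by
    rw [hw]; field_simp; linear_combination h
  refine planeEq_points (w := w) ?_ hs
  unfold planeEq
  have : ((w ^ 3 - s) * (s ^ 2 + 10 * s + 5) - 3 * w * (w ^ 3 + 8 * s)) * (9 * r - 1) = 0 := by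
    linear_combination (s ^ 2 + 10 * s + 5 - 3 * w) * h2 - 9 * s * h1
  exact (mul_eq_zero.1 this).resolve_right hr9

end FermatAgent.X015
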